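/-
Project S35, cell [ORD-RED] (helper27), part 0: factorisation in a UFD WITH EXCEPTIONAL PRIMES.
Mathlib + `fc_factor` (JT3/FCore/LocalUFD) only.  Prefix `s35o_`.

* `s35o_exists_zpow`  : for a prime element `p` of a UFD `R` and `f ≠ 0` in `Frac R`:
                        `f = (a / b) · p ^ e` with `p ∤ a`, `p ∤ b`, `e : ℤ`;
* `s35o_factor_exc`   : if `f ∈ Frac R` is, at every prime element `q` NOT associated to a member
                        of the finite set `S` of prime elements, a `q`-unit times an `m`-th power,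
                        then `f = w · ∏_{p ∈ S} p ^ (e p) · G ^ m` with `w ∈ Rˣ`, `e p ∈ ℤ`;
* `s35o_factor_two`   : the case `S = {u, v}` (a regular node: `𝔪 = (u, v)`).
-/
import Mathlib
import Fermat.Agent.JT3.FCore.LocalUFD

set_option autoImplicit false
set_option linter.unusedSectionVars false

namespace Fermat.Agent.S35

open Fermat.Agent.JT3

variable {R : Type*} [CommRing R] [IsDomain R] [UniqueFactorizationMonoid R]
  {F : Type*} [Field F] [Algebra R F] [IsFractionRing R F]

/-- every nonzero `f ∈ Frac R` is a `p`-unit times an integral power of the prime `p`. -/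
theorem s35o_exists_zpow {p : R} (hp : Prime p) (f : F) (hf : f ≠ 0) :
    ∃ (e : ℤ) (a b : R), ¬ p ∣ a ∧ ¬ p ∣ b ∧
      f * algebraMap R F b = algebraMap R F a * algebraMap R F p ^ e := by
  have hinj : Function.Injective (algebraMap R F) := IsFractionRing.injective R F
  obtain ⟨n, d, hd, hnd⟩ := IsFractionRing.div_surjective (A := R) f
  have hd0 : d ≠ 0 := nonZeroDivisors.ne_zero hd
  have hdF : algebraMap R F d ≠ 0 := (map_ne_zero_iff _ hinj).2 hd0
  have hn0 : n ≠ 0 := by
    rintro rfl
    rw [map_zero, zero_div] at hnd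
    exact hf hnd.symm
  have hpF : algebraMap R F p ≠ 0 := (map_ne_zero_iff _ hinj).2 hp.ne_zero
  obtain ⟨α, a, ha, hna⟩ := WfDvdMonoid.max_power_factor hn0 hp.irreducible
  obtain ⟨β, b, hb, hdb⟩ := WfDvdMonoid.max_power_factor hd0 hp.irreducible
  refine ⟨(α : ℤ) - β, a, b, ha, hb, ?_⟩
  have hb0 : algebraMap R F b ≠ 0 := by
    refine (map_ne_zero_iff _ hinj).2 ?_
    rintro rfl
    exact hb (dvd_zero p)
  rw [← hnd, hna, hdb, map_mul, map_mul, map_pow, map_pow, zpow_sub₀ hpF, zpow_natCast,
    zpow_natCast]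
  field_simp

/-- **Factorisation in a UFD with exceptional primes.** -/
theorem s35o_factor_exc (m : ℕ) (hm : m ≠ 0) (S : Finset R) (hS : ∀ p ∈ S, Prime p) :
    ∀ (f : F), f ≠ 0 →
    (∀ q : R, Prime q → (∀ p ∈ S, ¬ Associated q p) → ∃ (G : F) (a b : R), ¬ q ∣ a ∧ ¬ q ∣ b ∧
      f * algebraMap R F b = algebraMap R F a * G ^ m) →
    ∃ (w : Rˣ) (e : R → ℤ) (G : F),
      f = algebraMap R F w * (∏ p ∈ S, algebraMap R F p ^ e p) * G ^ m := by
  classical
  have hinj : Function.Injective (algebraMap R F) := IsFractionRing.injective R F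
  induction S using Finset.induction_on with
  | empty =>
    intro f hf h
    obtain ⟨w, G, hw⟩ := fc_factor m hm f hf (fun q hq => h q hq (by simp))
    exact ⟨w, fun _ => 0, G, by rw [Finset.prod_empty, mul_one, hw]⟩
  | insert p₀ S' hp₀ ih =>
    intro f hf h
    have hp₀' : Prime p₀ := hS p₀ (Finset.mem_insert_self _ _)
    have hpF : algebraMap R F p₀ ≠ 0 := (map_ne_zero_iff _ hinj).2 hp₀'.ne_zero
    obtain ⟨e₀, a₀, b₀, ha₀, hb₀, hf₀⟩ := s35o_exists_zpow hp₀' f hf
    have hb₀F : algebraMap R F b₀ ≠ 0 := by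
      refine (map_ne_zero_iff _ hinj).2 ?_
      rintro rfl
      exact hb₀ (dvd_zero p₀)
    have ha₀F : algebraMap R F a₀ ≠ 0 := by
      refine (map_ne_zero_iff _ hinj).2 ?_
      rintro rfl
      exact ha₀ (dvd_zero p₀)
    -- `f₁ := f / p₀ ^ e₀`
    set f₁ : F := f * (algebraMap R F p₀ ^ e₀)⁻¹ with hf₁
    have hf₁0 : f₁ ≠ 0 := mul_ne_zero hf (inv_ne_zero (zpow_ne_zero _ hpF))
    have hf₁eq : f₁ * algebraMap R F b₀ = algebraMap R F a₀ := by
      rw [hf₁, mul_right_comm, hf₀, mul_assoc, mul_inv_cancel₀ (zpow_ne_zero _ hpF), mul_one]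
    have h₁ : ∀ q : R, Prime q → (∀ p ∈ S', ¬ Associated q p) → ∃ (G : F) (a b : R),
        ¬ q ∣ a ∧ ¬ q ∣ b ∧ f₁ * algebraMap R F b = algebraMap R F a * G ^ m := by
      intro q hq hqS'
      by_cases hqp : Associated q p₀
      · refine ⟨1, a₀, b₀, fun hd => ha₀ (hqp.symm.dvd.trans hd),
          fun hd => hb₀ (hqp.symm.dvd.trans hd), ?_⟩
        rw [one_pow, mul_one, hf₁eq]
      · have hqS : ∀ p ∈ insert p₀ S', ¬ Associated q p := by
          intro p hp
          rcases Finset.mem_insert.1 hp with rfl | hp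
          · exact hqp
          · exact hqS' p hp
        obtain ⟨G, a, b, ha, hb, hfab⟩ := h q hq hqS
        have hqp₀ : ¬ q ∣ p₀ := by
          intro hd
          exact hqp (hq.irreducible.associated_of_dvd hp₀'.irreducible hd)
        have hqpow : ∀ k : ℕ, ¬ q ∣ p₀ ^ k := fun k hd => hqp₀ (hq.dvd_of_dvd_pow hd)
        -- split according to the sign of `e₀`
        rcases Int.eq_ofNat_of_zero_le (a := |e₀|) (abs_nonneg _) with ⟨k, hk⟩
        rcases le_total 0 e₀ with he | he
        · -- `e₀ = k ≥ 0`: `f₁ · (b · p₀^k) = a · G^m`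
          have he₀ : e₀ = k := by rw [← hk, abs_of_nonneg he]
          refine ⟨G, a, b * p₀ ^ k, ha, fun hd => ?_, ?_⟩
          · rcases hq.dvd_or_dvd hd with h' | h'
            · exact hb h'
            · exact hqpow k h'
          · rw [hf₁, he₀, zpow_natCast, map_mul, map_pow]
            have hpk : algebraMap R F p₀ ^ k ≠ 0 := pow_ne_zero _ hpF
            calc f * (algebraMap R F p₀ ^ k)⁻¹ * (algebraMap R F b * algebraMap R F p₀ ^ k)
                = f * algebraMap R F b * ((algebraMap R F p₀ ^ k)⁻¹ * algebraMap R F p₀ ^ k) := by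
                  ring
              _ = algebraMap R F a * G ^ m := by rw [inv_mul_cancel₀ hpk, mul_one, hfab]
        · -- `e₀ = -k ≤ 0`: `f₁ · b = (a · p₀^k) · G^m`
          have he₀ : e₀ = -(k : ℤ) := by rw [← hk, abs_of_nonpos he, neg_neg]
          refine ⟨G, a * p₀ ^ k, b, fun hd => ?_, hb, ?_⟩
          · rcases hq.dvd_or_dvd hd with h' | h'
            · exact ha h'
            · exact hqpow k h'
          · rw [hf₁, he₀, zpow_neg, inv_inv, zpow_natCast, map_mul, map_pow]
            calc f * algebraMap R F p₀ ^ k * algebraMap R F b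
                = f * algebraMap R F b * algebraMap R F p₀ ^ k := by ring
              _ = algebraMap R F a * algebraMap R F p₀ ^ k * G ^ m := by rw [hfab]; ring
    obtain ⟨w, e, G, hw⟩ := ih (fun p hp => hS p (Finset.mem_insert_of_mem hp)) f₁ hf₁0 h₁
    refine ⟨w, Function.update e p₀ e₀, G, ?_⟩
    rw [Finset.prod_insert hp₀, Function.update_self]
    have hprod : ∏ p ∈ S', algebraMap R F p ^ Function.update e p₀ e₀ p =
        ∏ p ∈ S', algebraMap R F p ^ e p := by
      refine Finset.prod_congr rfl fun p hp => ?_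
      rw [Function.update_of_ne]
      rintro rfl
      exact hp₀ hp
    rw [hprod]
    have : f = f₁ * algebraMap R F p₀ ^ e₀ := by
      rw [hf₁, mul_assoc, inv_mul_cancel₀ (zpow_ne_zero _ hpF), mul_one]
    rw [this, hw]
    ring

/-- **Two exceptional primes** (a regular node). -/
theorem s35o_factor_two (m : ℕ) (hm : m ≠ 0) {u v : R} (hu : Prime u) (hv : Prime v)
    (f : F) (hf : f ≠ 0)
    (h : ∀ q : R, Prime q → ¬ Associated q u → ¬ Associated q v → ∃ (G : F) (a b : R),
      ¬ q ∣ a ∧ ¬ q ∣ b ∧ f * algebraMap R F b = algebraMap R F a * G ^ m) :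
    ∃ (w : Rˣ) (eu ev : ℤ) (G : F),
      f = algebraMap R F w * algebraMap R F u ^ eu * algebraMap R F v ^ ev * G ^ m := by
  classical
  by_cases huv : u = v
  · subst huv
    obtain ⟨w, e, G, hw⟩ := s35o_factor_exc m hm {u} (by simpa using hu) f hf
      (fun q hq hqS => h q hq (hqS u (by simp)) (hqS u (by simp)))
    refine ⟨w, e u, 0, G, ?_⟩
    rw [hw, Finset.prod_singleton, zpow_zero, mul_one]
  · obtain ⟨w, e, G, hw⟩ := s35o_factor_exc m hm {u, v}
      (by intro p hp; rcases Finset.mem_insert.1 hp with rfl | hp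
          · exact hu
          · rw [Finset.mem_singleton] at hp; subst hp; exact hv) f hf
      (fun q hq hqS => h q hq (hqS u (by simp)) (hqS v (by simp)))
    refine ⟨w, e u, e v, G, ?_⟩
    rw [hw, Finset.prod_insert (by simpa using huv), Finset.prod_singleton]
    ring

end Fermat.Agent.S35
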