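/-
Project S35, cell [ORD-RED] (helper27), part 1: THE FACTORISATION AT ONE CLOSED POINT, abstract.
Prefix `s35o_`.

`R` a noetherian factorial domain (in the application `R = B_𝔫`, the local ring of a chart at a
closed point of the special fibre: factorial by `fc_ufd` at a smooth point `𝔪 = (π, t)` and at a
regular node `𝔪 = (u, v)`, `u v = q`), `F = Frac R`, vocabulary of `SS/Local` (`ssl_Horiz`,
`ssl_UnitAt`).  `g ∈ Fˣ` with `hdiv`: at every horizontal prime, `g` is a unit times an `m`-th power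
(`ssl_hdiv_of_places`).

* `s35o_horiz_of_prime` : a prime element not dividing `π` generates a horizontal prime;
* `s35o_point_factor`   : if every prime divisor of `π` is associated to a member of `S`, then
                          `g = ω · ∏_{p ∈ S} p ^ (e p) · G ^ m`, `ω ∈ Rˣ`;
* `s35o_split_unit`     : `G = p ^ k · G₀` with `G₀` a unit at `(p)`;
* `s35o_node`           : at a regular node, for `g` a unit at `(v)`: `g = ω · u ^ a · e ^ m` with `e` a
                          unit at `(u)` and at `(v)`;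
* `s35o_smooth`         : at a smooth point, for `g` a unit at `(π)`: `g = ω · e ^ m` with `e` a unit
                          at `(π)`.
-/
import Mathlib
import Fermat.Agent.S35.OrdRed.Factor
import Fermat.Agent.SS.Local.Height1

set_option autoImplicit false
set_option linter.unusedSectionVars false
set_option linter.unusedVariables false
set_option linter.style.haveILetI false

namespace Fermat.Agent.S35

open Fermat.Agent.JT3 Fermat.Agent.SS

variable {R : Type*} [CommRing R] [IsDomain R] [IsNoetherianRing R] [UniqueFactorizationMonoid R]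
  {F : Type*} [Field F] [Algebra R F] [IsFractionRing R F]

omit [UniqueFactorizationMonoid R] in
/-- a prime element not dividing `π` generates a horizontal prime. -/
theorem s35o_horiz_of_prime {π q : R} (hq : Prime q) (hqπ : ¬ q ∣ π) :
    ssl_Horiz π (Ideal.span {q}) := by
  have hP : (Ideal.span {q} : Ideal R).IsPrime := (Ideal.span_singleton_prime hq.ne_zero).2 hq
  refine ⟨hP, le_antisymm ?_ ?_, fun h => hqπ (Ideal.mem_span_singleton.1 h)⟩
  · refine Ideal.height_le_one_of_isPrincipal_of_mem_minimalPrimes (Ideal.span {q}) _ ?_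
    rw [Ideal.minimalPrimes_eq_subsingleton_self]
    exact Set.mem_singleton _
  · rw [Order.one_le_iff_pos, pos_iff_ne_zero, Ne, Ideal.height_eq_zero_iff_eq_bot,
      Ideal.span_singleton_eq_bot]
    exact hq.ne_zero

omit [IsNoetherianRing R] [UniqueFactorizationMonoid R] in
/-- `ssl_UnitAt` at a principal prime, in the `fc_factor` form. -/
theorem s35o_unitAt_span {q : R} {z : F} (h : ssl_UnitAt F (Ideal.span {q}) z) :
    ∃ a b : R, ¬ q ∣ a ∧ ¬ q ∣ b ∧ z * algebraMap R F b = algebraMap R F a := by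
  obtain ⟨a, s, ha, hs, h⟩ := h
  exact ⟨a, s, fun hd => ha (Ideal.mem_span_singleton.2 hd),
    fun hd => hs (Ideal.mem_span_singleton.2 hd), h⟩

omit [IsNoetherianRing R] [UniqueFactorizationMonoid R] in
theorem s35o_unitAt_span_iff {q : R} {z : F} :
    ssl_UnitAt F (Ideal.span {q}) z ↔
      ∃ a b : R, ¬ q ∣ a ∧ ¬ q ∣ b ∧ z * algebraMap R F b = algebraMap R F a := by
  refine ⟨s35o_unitAt_span, ?_⟩
  rintro ⟨a, b, ha, hb, h⟩
  exact ⟨a, b, fun hm => ha (Ideal.mem_span_singleton.1 hm),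
    fun hm => hb (Ideal.mem_span_singleton.1 hm), h⟩

/-- **the factorisation at a point**: `S` a finite set of prime elements containing (up to
associates) every prime divisor of `π`. -/
theorem s35o_point_factor (m : ℕ) (hm : m ≠ 0) {π : R} (S : Finset R) (hS : ∀ p ∈ S, Prime p)
    (hπS : ∀ q : R, Prime q → q ∣ π → ∃ p ∈ S, Associated q p)
    {g : F} (hg : g ≠ 0)
    (hdiv : ∀ 𝔮 : Ideal R, ssl_Horiz π 𝔮 → ∃ G : F, G ≠ 0 ∧ ssl_UnitAt F 𝔮 (g / G ^ m)) :
    ∃ (ω : Rˣ) (e : R → ℤ) (G : F),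
      g = algebraMap R F ω * (∏ p ∈ S, algebraMap R F p ^ e p) * G ^ m := by
  refine s35o_factor_exc m hm S hS g hg fun q hq hqS => ?_
  have hqπ : ¬ q ∣ π := by
    intro hd
    obtain ⟨p, hp, hass⟩ := hπS q hq hd
    exact hqS p hp hass
  obtain ⟨G, hG0, hG⟩ := hdiv _ (s35o_horiz_of_prime hq hqπ)
  obtain ⟨a, b, ha, hb, hab⟩ := s35o_unitAt_span hG
  refine ⟨G, a, b, ha, hb, ?_⟩
  have hGm : G ^ m ≠ 0 := pow_ne_zero m hG0
  rw [← hab]
  field_simp

omit [IsNoetherianRing R] in
/-- every nonzero `G` is a power of the prime `p` times a unit at `(p)`. -/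
theorem s35o_split_unit {p : R} (hp : Prime p) (G : F) (hG : G ≠ 0) :
    ∃ (k : ℤ) (G₀ : F), G = algebraMap R F p ^ k * G₀ ∧ ssl_UnitAt F (Ideal.span {p}) G₀ := by
  have hinj : Function.Injective (algebraMap R F) := IsFractionRing.injective R F
  have hpF : algebraMap R F p ≠ 0 := (map_ne_zero_iff _ hinj).2 hp.ne_zero
  obtain ⟨k, a, b, ha, hb, h⟩ := s35o_exists_zpow hp G hG
  refine ⟨k, G * (algebraMap R F p ^ k)⁻¹, ?_, s35o_unitAt_span_iff.2 ⟨a, b, ha, hb, ?_⟩⟩
  · rw [mul_comm G, ← mul_assoc, mul_inv_cancel₀ (zpow_ne_zero _ hpF), one_mul]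
  · rw [mul_right_comm, h, mul_assoc, mul_inv_cancel₀ (zpow_ne_zero _ hpF), mul_one]

omit [IsNoetherianRing R] [UniqueFactorizationMonoid R] in
/-- a nonzero integral power of a prime `p` is not a unit at `(p)`. -/
theorem s35o_zpow_unitAt {p : R} (hp : Prime p) {k : ℤ}
    (h : ssl_UnitAt F (Ideal.span {p}) (algebraMap R F p ^ k)) : k = 0 := by
  have hinj : Function.Injective (algebraMap R F) := IsFractionRing.injective R F
  haveI hP : (Ideal.span {p} : Ideal R).IsPrime := (Ideal.span_singleton_prime hp.ne_zero).2 hp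
  have hpF : algebraMap R F p ≠ 0 := (map_ne_zero_iff _ hinj).2 hp.ne_zero
  -- positive powers are not units
  have key : ∀ n : ℕ, n ≠ 0 → ¬ ssl_UnitAt F (Ideal.span {p}) (algebraMap R F p ^ n) := by
    intro n hn hU
    obtain ⟨a, s, ha, hs, h⟩ := hU
    apply ha
    have : a = p ^ n * s := by
      apply hinj
      rw [← h, map_mul, map_pow]
    rw [this, Ideal.mem_span_singleton]
    exact Dvd.dvd.mul_right (dvd_pow_self p hn) s
  rcases lt_trichotomy k 0 with hk | hk | hk
  · exfalso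
    obtain ⟨n, hn⟩ := Int.exists_eq_neg_ofNat hk.le
    have hn0 : n ≠ 0 := by
      rintro rfl
      omega
    apply key n hn0
    have h2 := ssl_unitAt_inv (Ideal.span {p}) h
    rwa [hn, zpow_neg, inv_inv, zpow_natCast] at h2
  · exact hk
  · exfalso
    obtain ⟨n, hn⟩ := Int.eq_ofNat_of_zero_le hk.le
    have hn0 : n ≠ 0 := by
      rintro rfl
      omega
    apply key n hn0
    rwa [hn, zpow_natCast] at h

omit [IsNoetherianRing R] [UniqueFactorizationMonoid R] in
/-- a prime element `u` not associated to the prime `v` is a unit at `(v)`. -/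
theorem s35o_unitAt_of_not_associated {u v : R} (hu : Prime u) (hv : Prime v)
    (huv : ¬ Associated u v) : ssl_UnitAt F (Ideal.span {v}) (algebraMap R F u) := by
  haveI hP : (Ideal.span {v} : Ideal R).IsPrime := (Ideal.span_singleton_prime hv.ne_zero).2 hv
  refine ssl_unitAt_algebraMap _ fun hm => huv ?_
  rw [Ideal.mem_span_singleton] at hm
  exact (hv.irreducible.associated_of_dvd hu.irreducible hm).symm

omit [IsNoetherianRing R] [UniqueFactorizationMonoid R] in
/-- a unit of `R` is a unit at every prime. -/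
theorem s35o_unitAt_unit (𝔮 : Ideal R) [h𝔮 : 𝔮.IsPrime] (ω : Rˣ) :
    ssl_UnitAt F 𝔮 (algebraMap R F ω) :=
  ssl_unitAt_algebraMap 𝔮 fun hm => h𝔮.ne_top (Ideal.eq_top_of_isUnit_mem _ hm ω.isUnit)

/-- **REGULAR NODE** (`π ~ u v`): for `g` a unit at `(v)` with `hdiv`:
`g = ω · u ^ a · e ^ m`, `ω ∈ Rˣ`, `e` a unit at `(u)` and at `(v)`. -/
theorem s35o_node (m : ℕ) (hm : m ≠ 0) {π u v : R} (hu : Prime u) (hv : Prime v)
    (huv : ¬ Associated u v)
    (hπ : ∀ q : R, Prime q → q ∣ π → Associated q u ∨ Associated q v)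
    {g : F} (hg : g ≠ 0)
    (hdiv : ∀ 𝔮 : Ideal R, ssl_Horiz π 𝔮 → ∃ G : F, G ≠ 0 ∧ ssl_UnitAt F 𝔮 (g / G ^ m))
    (hgv : ssl_UnitAt F (Ideal.span {v}) g) :
    ∃ (ω : Rˣ) (a : ℤ) (e : F), ssl_UnitAt F (Ideal.span {u}) e ∧ ssl_UnitAt F (Ideal.span {v}) e ∧
      g = algebraMap R F ω * algebraMap R F u ^ a * e ^ m := by
  classical
  have hinj : Function.Injective (algebraMap R F) := IsFractionRing.injective R F
  haveI hPu : (Ideal.span {u} : Ideal R).IsPrime := (Ideal.span_singleton_prime hu.ne_zero).2 hu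
  haveI hPv : (Ideal.span {v} : Ideal R).IsPrime := (Ideal.span_singleton_prime hv.ne_zero).2 hv
  have huF : algebraMap R F u ≠ 0 := (map_ne_zero_iff _ hinj).2 hu.ne_zero
  have hvF : algebraMap R F v ≠ 0 := (map_ne_zero_iff _ hinj).2 hv.ne_zero
  have hne : u ≠ v := fun h => huv (h ▸ Associated.refl u)
  obtain ⟨ω, e, G, hfac⟩ := s35o_point_factor m hm ({u, v} : Finset R)
    (by intro p hp
        rcases Finset.mem_insert.1 hp with rfl | hp
        · exact hu
        · rw [Finset.mem_singleton] at hp; subst hp; exact hv)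
    (by intro q hq hd
        rcases hπ q hq hd with h | h
        · exact ⟨u, by simp, h⟩
        · exact ⟨v, by simp, h⟩) hg hdiv
  rw [Finset.prod_insert (by simpa using hne), Finset.prod_singleton] at hfac
  have hG0 : G ≠ 0 := by
    rintro rfl
    rw [zero_pow hm, mul_zero] at hfac
    exact hg hfac
  -- split `G = u^α v^β G₀`
  obtain ⟨α, G₁, hG₁, hG₁u⟩ := s35o_split_unit hu G hG0
  have hG₁0 : G₁ ≠ 0 := ssl_unitAt_ne_zero _ hG₁u
  obtain ⟨β, G₀, hG₀, hG₀v⟩ := s35o_split_unit hv G₁ hG₁0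
  have huv' : ssl_UnitAt F (Ideal.span {v}) (algebraMap R F u) :=
    s35o_unitAt_of_not_associated hu hv huv
  have hvu' : ssl_UnitAt F (Ideal.span {u}) (algebraMap R F v) :=
    s35o_unitAt_of_not_associated hv hu fun h => huv h.symm
  -- `G₀` is a unit at `(u)` as well
  have hG₀u : ssl_UnitAt F (Ideal.span {u}) G₀ := by
    have : G₀ = G₁ * (algebraMap R F v ^ β)⁻¹ := by
      rw [hG₀, mul_comm (algebraMap R F v ^ β), mul_assoc,
        mul_inv_cancel₀ (zpow_ne_zero _ hvF), mul_one]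
    rw [this]
    exact ssl_unitAt_mul _ hG₁u (ssl_unitAt_inv _ (ssl_unitAt_zpow _ hvu' β))
  -- the exponents
  have hg2 : g = algebraMap R F ω * algebraMap R F u ^ (e u + m * α) *
      algebraMap R F v ^ (e v + m * β) * G₀ ^ m := by
    rw [hfac, hG₁, hG₀, zpow_add₀ huF, zpow_add₀ hvF, mul_comm (m : ℤ) α, mul_comm (m : ℤ) β,
      zpow_mul, zpow_mul, zpow_natCast, zpow_natCast]
    ring
  -- the exponent of `v` vanishes
  have hev : e v + m * β = 0 := by
    apply s35o_zpow_unitAt (F := F) hv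
    have h1 : algebraMap R F v ^ (e v + m * β) =
        g * (algebraMap R F ω * algebraMap R F u ^ (e u + m * α) * G₀ ^ m)⁻¹ := by
      have hne0 : algebraMap R F ω * algebraMap R F u ^ (e u + m * α) * G₀ ^ m ≠ 0 := by
        refine mul_ne_zero (mul_ne_zero ?_ (zpow_ne_zero _ huF))
          (pow_ne_zero _ (ssl_unitAt_ne_zero _ hG₀v))
        exact (map_ne_zero_iff _ hinj).2 ω.ne_zero
      rw [eq_mul_inv_iff_mul_eq₀ hne0, hg2]
      ring
    rw [h1]
    refine ssl_unitAt_mul _ hgv (ssl_unitAt_inv _ ?_)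
    exact ssl_unitAt_mul _ (ssl_unitAt_mul _ (s35o_unitAt_unit _ ω) (ssl_unitAt_zpow _ huv' _))
      (ssl_unitAt_pow _ hG₀v m)
  refine ⟨ω, e u + m * α, G₀, hG₀u, hG₀v, ?_⟩
  rw [hg2, hev, zpow_zero, mul_one]

/-- **SMOOTH POINT** (`π` a prime element): for `g` a unit at `(π)` with `hdiv`: `g = ω · e ^ m`,
`ω ∈ Rˣ`, `e` a unit at `(π)`. -/
theorem s35o_smooth (m : ℕ) (hm : m ≠ 0) {π : R} (hπ : Prime π)
    {g : F} (hg : g ≠ 0)
    (hdiv : ∀ 𝔮 : Ideal R, ssl_Horiz π 𝔮 → ∃ G : F, G ≠ 0 ∧ ssl_UnitAt F 𝔮 (g / G ^ m))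
    (hgπ : ssl_UnitAt F (Ideal.span {π}) g) :
    ∃ (ω : Rˣ) (e : F), ssl_UnitAt F (Ideal.span {π}) e ∧ g = algebraMap R F ω * e ^ m := by
  classical
  have hinj : Function.Injective (algebraMap R F) := IsFractionRing.injective R F
  haveI hP : (Ideal.span {π} : Ideal R).IsPrime := (Ideal.span_singleton_prime hπ.ne_zero).2 hπ
  have hπF : algebraMap R F π ≠ 0 := (map_ne_zero_iff _ hinj).2 hπ.ne_zero
  obtain ⟨ω, e, G, hfac⟩ := s35o_point_factor m hm ({π} : Finset R)
    (by intro p hp; rw [Finset.mem_singleton] at hp; subst hp; exact hπ)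
    (by intro q hq hd
        exact ⟨π, by simp, hq.irreducible.associated_of_dvd hπ.irreducible hd⟩) hg hdiv
  rw [Finset.prod_singleton] at hfac
  have hG0 : G ≠ 0 := by
    rintro rfl
    rw [zero_pow hm, mul_zero] at hfac
    exact hg hfac
  obtain ⟨α, G₀, hG₀, hG₀π⟩ := s35o_split_unit hπ G hG0
  have hg2 : g = algebraMap R F ω * algebraMap R F π ^ (e π + m * α) * G₀ ^ m := by
    rw [hfac, hG₀, zpow_add₀ hπF, mul_comm (m : ℤ) α, zpow_mul, zpow_natCast]
    ring
  have hev : e π + m * α = 0 := by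
    apply s35o_zpow_unitAt (F := F) hπ
    have h1 : algebraMap R F π ^ (e π + m * α) = g * (algebraMap R F ω * G₀ ^ m)⁻¹ := by
      have hne0 : algebraMap R F ω * G₀ ^ m ≠ 0 :=
        mul_ne_zero ((map_ne_zero_iff _ hinj).2 ω.ne_zero)
          (pow_ne_zero _ (ssl_unitAt_ne_zero _ hG₀π))
      rw [eq_mul_inv_iff_mul_eq₀ hne0, hg2]
      ring
    rw [h1]
    exact ssl_unitAt_mul _ hgπ (ssl_unitAt_inv _
      (ssl_unitAt_mul _ (s35o_unitAt_unit _ ω) (ssl_unitAt_pow _ hG₀π m)))
  refine ⟨ω, G₀, hG₀π, ?_⟩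
  rw [hg2, hev, zpow_zero, mul_one]

end Fermat.Agent.S35
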